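/-
Program C (S55), package C8 export (B4), presentation leaves — helper86.

Invariants part (Q-J): for a tower `k ⊆ E ⊆ K` of number fields with `K / k` finite Galois and
`E / k` normal, the `Gal(K/E)`-invariants of the finite ideles of `K` are the finite ideles of
`E`, as representations of `Gal(K/k) ⧸ Gal(K/E) ≃ Gal(E/k)` (in the style of `H88.quotH2` /
`H79.quotH2Iso`).

* `ideleUpHom E K : ideleGroup E →* ideleGroup K` (base change), injective, equivariant,
  compatible with the diagonal, image = the invariants (`exists_ideleUpHom_eq`, from C5's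
  `exists_semiLocalMap_eq` = (C7));
* `idelesToInvariants`, `idelesToInvariants_bijective`, `ideleInvEquiv`, `ideleInv_comm`;
* `invariantsToIdeles` (morphism of representations of `Gal(E/k)`), `ideleQuotIso n`,
  `map_invariantsToIdeles_eq`, `map_invariantsToIdeles_bijective`;
* `isZero_quotientToInvariants_ideleRep` : transfer of vanishing.
-/
import Mathlib
import Fermat.Agent.S55.H79.QuotPres
import Fermat.Agent.S55.H88.SemiLocalBasic
import Fermat.Agent.S55.H88.IdeleRep

set_option autoImplicit false
set_option linter.unusedSectionVars false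
set_option linter.unusedVariables false
set_option linter.style.haveILetI false

open CategoryTheory groupCohomology Rep

noncomputable section

namespace Fermat.Agent.S55.H86

open Fermat.Agent.S55.H88 Fermat.Agent.S55.H79

attribute [local instance] factOfPrimes

section Up

variable (E K : Type) [Field E] [Field K] [Algebra E K]

theorem semiLocalMap_injective (q : ℕ) [Fact q.Prime] [Algebra.IsAlgebraic E K] :
    Function.Injective (semiLocalMap q E K) := by
  intro f g h
  refine Subtype.ext (funext fun τ₀ => ?_)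
  obtain ⟨τ, rfl⟩ := exists_extend q (K := K) τ₀
  exact congrArg (fun F : semiLocal q K => (F : (K →+* PadicAlgCl q) → PadicAlgCl q) τ) h

/-- Base change of finite ideles along `E → K`. -/
def ideleUpHom : ideleGroup E →* ideleGroup K where
  toFun x := ⟨fun q => Units.map (semiLocalMap (q : ℕ) E K : semiLocal (q : ℕ) E →* semiLocal (q : ℕ) K)
      ((x : ∀ q : Nat.Primes, (semiLocal (q : ℕ) E)ˣ) q), by
    refine Set.Finite.subset x.2 fun q hq h => hq fun τ => ?_
    exact h (τ.comp (algebraMap E K))⟩
  map_one' := Subtype.ext (funext fun q => map_one _)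
  map_mul' x y := Subtype.ext (funext fun q => map_mul _ _ _)

variable {E K} in
theorem ideleUpHom_apply (x : ideleGroup E) (q : Nat.Primes) (τ : K →+* PadicAlgCl (q : ℕ)) :
    ((((ideleUpHom E K x : ideleGroup K) : ∀ q : Nat.Primes, (semiLocal (q : ℕ) K)ˣ) q :
        semiLocal (q : ℕ) K) : (K →+* PadicAlgCl (q : ℕ)) → PadicAlgCl (q : ℕ)) τ
      = ((((x : ∀ q : Nat.Primes, (semiLocal (q : ℕ) E)ˣ) q : (semiLocal (q : ℕ) E)ˣ) :
        semiLocal (q : ℕ) E) : (E →+* PadicAlgCl (q : ℕ)) → PadicAlgCl (q : ℕ))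
          (τ.comp (algebraMap E K)) := rfl

/-- The component at `q` of a base-changed idele. -/
theorem ideleComponent_ideleUpHom (x : ideleGroup E) (q : Nat.Primes) :
    ideleComponent K q (ideleUpHom E K x)
      = Units.map (semiLocalMap (q : ℕ) E K : semiLocal (q : ℕ) E →* semiLocal (q : ℕ) K)
          (ideleComponent E q x) := rfl

theorem ideleUpHom_injective [Algebra.IsAlgebraic E K] :
    Function.Injective (ideleUpHom E K) := by
  intro x y h
  refine Subtype.ext (funext fun q => Units.ext ?_)
  have h1 := congrArg (fun z : ideleGroup K =>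
    (((z : ∀ q : Nat.Primes, (semiLocal (q : ℕ) K)ˣ) q : (semiLocal (q : ℕ) K)ˣ) :
      semiLocal (q : ℕ) K)) h
  exact semiLocalMap_injective E K (q : ℕ) h1

/-- Base change commutes with the diagonal embeddings. -/
theorem ideleUpHom_diag [NumberField E] [NumberField K] (u : Eˣ) :
    ideleUpHom E K (ideleDiagHom E u) = ideleDiagHom K (Units.map (algebraMap E K : E →* K) u) :=
  Subtype.ext (funext fun q => Units.ext (Subtype.ext (funext fun τ => rfl)))

/-- An idele of `K` fixed by `Gal(K/E)` comes from `E`. -/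
theorem exists_ideleUpHom_eq [Normal E K] (x : ideleGroup K)
    (hx : ∀ σ : K ≃ₐ[E] K, σ • x = x) : ∃ y : ideleGroup E, ideleUpHom E K y = x := by
  have key : ∀ q : Nat.Primes, ∃ u : (semiLocal (q : ℕ) E)ˣ,
      Units.map (semiLocalMap (q : ℕ) E K : semiLocal (q : ℕ) E →* semiLocal (q : ℕ) K) u
        = (x : ∀ q : Nat.Primes, (semiLocal (q : ℕ) K)ˣ) q := by
    intro q
    have h1 : ∀ σ : K ≃ₐ[E] K,
        σ • (((x : ∀ q : Nat.Primes, (semiLocal (q : ℕ) K)ˣ) q : (semiLocal (q : ℕ) K)ˣ) :
          semiLocal (q : ℕ) K) = (((x : ∀ q : Nat.Primes, (semiLocal (q : ℕ) K)ˣ) q :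
            (semiLocal (q : ℕ) K)ˣ) : semiLocal (q : ℕ) K) := fun σ =>
      congrArg (fun z : ideleGroup K =>
        (((z : ∀ q : Nat.Primes, (semiLocal (q : ℕ) K)ˣ) q : (semiLocal (q : ℕ) K)ˣ) :
          semiLocal (q : ℕ) K)) (hx σ)
    have h2 : ∀ σ : K ≃ₐ[E] K,
        σ • ((((x : ∀ q : Nat.Primes, (semiLocal (q : ℕ) K)ˣ) q)⁻¹ : (semiLocal (q : ℕ) K)ˣ) :
          semiLocal (q : ℕ) K) = ((((x : ∀ q : Nat.Primes, (semiLocal (q : ℕ) K)ˣ) q)⁻¹ :
            (semiLocal (q : ℕ) K)ˣ) : semiLocal (q : ℕ) K) := fun σ =>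
      congrArg (fun z : ideleGroup K =>
        ((((z : ∀ q : Nat.Primes, (semiLocal (q : ℕ) K)ˣ) q)⁻¹ : (semiLocal (q : ℕ) K)ˣ) :
          semiLocal (q : ℕ) K)) (hx σ)
    obtain ⟨f₀, hf₀⟩ := exists_semiLocalMap_eq (q : ℕ) _ h1
    obtain ⟨g₀, hg₀⟩ := exists_semiLocalMap_eq (q : ℕ) _ h2
    have hfg : f₀ * g₀ = 1 := semiLocalMap_injective E K (q : ℕ) (by
      rw [map_mul, hf₀, hg₀, map_one]
      exact Units.mul_inv _)
    have hgf : g₀ * f₀ = 1 := by rw [mul_comm]; exact hfg
    exact ⟨⟨f₀, g₀, hfg, hgf⟩, Units.ext hf₀⟩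
  choose u hu using key
  refine ⟨⟨u, ?_⟩, Subtype.ext (funext hu)⟩
  refine Set.Finite.subset x.2 fun q hq h => hq fun τ₀ => ?_
  obtain ⟨τ, rfl⟩ := exists_extend (q : ℕ) (K := K) τ₀
  have h3 := h τ
  rw [← hu q] at h3
  exact h3

end Up

section Equivariance

variable (k E K : Type) [Field k] [Field E] [Field K] [Algebra k E] [Algebra E K] [Algebra k K]
  [IsScalarTower k E K]

/-- Base change of ideles is equivariant for compatible automorphisms of `K` and `E`. -/
theorem smul_ideleUpHom (σ : K ≃ₐ[k] K) (γ : E ≃ₐ[k] E)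
    (h : ∀ e : E, σ (algebraMap E K e) = algebraMap E K (γ e)) (x : ideleGroup E) :
    σ • ideleUpHom E K x = ideleUpHom E K (γ • x) := by
  refine Subtype.ext (funext fun q => Units.ext (Subtype.ext (funext fun τ => ?_)))
  show ((((x : ∀ q : Nat.Primes, (semiLocal (q : ℕ) E)ˣ) q : (semiLocal (q : ℕ) E)ˣ) :
        semiLocal (q : ℕ) E) : (E →+* PadicAlgCl (q : ℕ)) → PadicAlgCl (q : ℕ))
          ((τ.comp ((σ : K ≃+* K) : K →+* K)).comp (algebraMap E K))
      = ((((x : ∀ q : Nat.Primes, (semiLocal (q : ℕ) E)ˣ) q : (semiLocal (q : ℕ) E)ˣ) :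
        semiLocal (q : ℕ) E) : (E →+* PadicAlgCl (q : ℕ)) → PadicAlgCl (q : ℕ))
          ((τ.comp (algebraMap E K)).comp ((γ : E ≃+* E) : E →+* E))
  have e1 : (τ.comp ((σ : K ≃+* K) : K →+* K)).comp (algebraMap E K)
      = (τ.comp (algebraMap E K)).comp ((γ : E ≃+* E) : E →+* E) :=
    RingHom.ext fun e => congrArg τ (h e)
  rw [e1]

end Equivariance

section Quot

variable (k E K : Type) [Field k] [Field E] [Field K] [Algebra k E] [Algebra E K] [Algebra k K]
  [IsScalarTower k E K] [Normal k E] [IsGalois k K] [FiniteDimensional k K]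

/-- Base change of ideles, as a linear map `J_E → J_K`. -/
def ideleUpLin : (ideleRep k E).V →ₗ[ℤ] (ideleRep k K).V :=
  (MonoidHom.toAdditive (ideleUpHom E K)).toIntLinearMap

theorem ideleUpLin_apply (u : (ideleRep k E).V) :
    ideleUpLin k E K u = Additive.ofMul (ideleUpHom E K (Additive.toMul u)) := rfl

theorem ideleUpLin_mem_invariants (u : (ideleRep k E).V) :
    ideleUpLin k E K u ∈
      Representation.invariants ((ideleRep k K).ρ.comp (fixSubgroup k E K).subtype) := by
  intro h
  have h1 := smul_ideleUpHom k E K (h : K ≃ₐ[k] K) 1 (fun e => h.2 e) (Additive.toMul u)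
  rw [one_smul] at h1
  exact congrArg Additive.ofMul h1

/-- `J_E` as the `Gal(K/E)`-invariants of `J_K` (linear map into the invariants). -/
def idelesToInvariants :
    (ideleRep k E).V →ₗ[ℤ]
      Representation.invariants ((ideleRep k K).ρ.comp (fixSubgroup k E K).subtype) :=
  LinearMap.codRestrict _ (ideleUpLin k E K) (ideleUpLin_mem_invariants k E K)

theorem coe_idelesToInvariants (u : (ideleRep k E).V) :
    ((idelesToInvariants k E K u : Representation.invariants
      ((ideleRep k K).ρ.comp (fixSubgroup k E K).subtype)) : (ideleRep k K).V)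
      = ideleUpLin k E K u := rfl

theorem idelesToInvariants_bijective : Function.Bijective (idelesToInvariants k E K) := by
  haveI : IsGalois E K := IsGalois.tower_top_of_isGalois k E K
  haveI : FiniteDimensional E K := Module.Finite.right k E K
  constructor
  · intro u v h
    have h1 : ideleUpHom E K (Additive.toMul u) = ideleUpHom E K (Additive.toMul v) :=
      congrArg (fun x : Representation.invariants
        ((ideleRep k K).ρ.comp (fixSubgroup k E K).subtype) =>
          Additive.toMul (x : (ideleRep k K).V)) h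
    exact congrArg Additive.ofMul (ideleUpHom_injective E K h1)
  · rintro ⟨x, hx⟩
    have hfix : ∀ σ : K ≃ₐ[E] K, σ • (Additive.toMul x : ideleGroup K) = Additive.toMul x := by
      intro σ
      exact congrArg Additive.toMul (hx (galToFix k E K σ))
    obtain ⟨y, hy⟩ := exists_ideleUpHom_eq E K (Additive.toMul x) hfix
    exact ⟨Additive.ofMul y, Subtype.ext (congrArg Additive.ofMul hy)⟩

/-- The linear equivalence `(J_K)^{Gal(K/E)} ≃ J_E`. -/
def ideleInvEquiv :
    ((ideleRep k K).quotientToInvariants (fixSubgroup k E K)).V ≃ₗ[ℤ] (ideleRep k E).V :=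
  (LinearEquiv.ofBijective (idelesToInvariants k E K) (idelesToInvariants_bijective k E K)).symm

theorem ideleInvEquiv_idelesToInvariants (u : (ideleRep k E).V) :
    ideleInvEquiv k E K (idelesToInvariants k E K u) = u :=
  (LinearEquiv.ofBijective (idelesToInvariants k E K)
    (idelesToInvariants_bijective k E K)).symm_apply_apply u

theorem idelesToInvariants_ideleInvEquiv
    (x : ((ideleRep k K).quotientToInvariants (fixSubgroup k E K)).V) :
    idelesToInvariants k E K (ideleInvEquiv k E K x) = x :=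
  (LinearEquiv.ofBijective (idelesToInvariants k E K)
    (idelesToInvariants_bijective k E K)).apply_symm_apply x

/-- Equivariance of `idelesToInvariants`. -/
theorem idelesToInvariants_smul (σ : K ≃ₐ[k] K) (u : (ideleRep k E).V) :
    ((ideleRep k K).quotientToInvariants (fixSubgroup k E K)).ρ
        (QuotientGroup.mk σ) (idelesToInvariants k E K u)
      = idelesToInvariants k E K ((ideleRep k E).ρ (σ.restrictNormal E) u) := by
  refine Subtype.ext (congrArg Additive.ofMul ?_)
  exact smul_ideleUpHom k E K σ (σ.restrictNormal E)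
    (fun e => (AlgEquiv.restrictNormal_commutes σ E e).symm) (Additive.toMul u)

theorem ideleInv_comm (g : (K ≃ₐ[k] K) ⧸ fixSubgroup k E K) :
    (ideleInvEquiv k E K).toLinearMap ∘ₗ
        ((ideleRep k K).quotientToInvariants (fixSubgroup k E K)).ρ g =
      (ideleRep k E).ρ (quotGalEquiv k E K g) ∘ₗ (ideleInvEquiv k E K).toLinearMap := by
  refine LinearMap.ext fun x => ?_
  obtain ⟨σ, rfl⟩ := QuotientGroup.mk_surjective g
  obtain ⟨u, rfl⟩ := (idelesToInvariants_bijective k E K).2 x
  show ideleInvEquiv k E K (((ideleRep k K).quotientToInvariants (fixSubgroup k E K)).ρ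
      (QuotientGroup.mk σ) (idelesToInvariants k E K u))
    = (ideleRep k E).ρ (quotGalEquiv k E K (QuotientGroup.mk σ))
      (ideleInvEquiv k E K (idelesToInvariants k E K u))
  rw [idelesToInvariants_smul, ideleInvEquiv_idelesToInvariants,
    ideleInvEquiv_idelesToInvariants, quotGalEquiv_mk]

/-- `Hⁿ(Gal(K/k) ⧸ Gal(K/E), (J_K)^{Gal(K/E)}) ≅ Hⁿ(Gal(E/k), J_E)`. -/
def ideleQuotIso (n : ℕ) :
    groupCohomology ((ideleRep k K).quotientToInvariants (fixSubgroup k E K)) n ≅
      groupCohomology (ideleRep k E) n :=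
  mapIso (quotGalEquiv k E K) (ideleInvEquiv k E K) (ideleInv_comm k E K) n

/-- `(J_K)^{Gal(K/E)} → J_E` as a morphism of representations of `Gal(E/k)`. -/
def invariantsToIdeles :
    Rep.res (quotGalEquiv k E K).symm.toMonoidHom
        ((ideleRep k K).quotientToInvariants (fixSubgroup k E K)) ⟶ ideleRep k E :=
  Rep.ofHom ⟨(ideleInvEquiv k E K).toLinearMap, fun γ => by
    have h := ideleInv_comm k E K ((quotGalEquiv k E K).symm γ)
    rw [MulEquiv.apply_symm_apply] at h
    exact h⟩

theorem invariantsToIdeles_apply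
    (x : ((ideleRep k K).quotientToInvariants (fixSubgroup k E K)).V) :
    (invariantsToIdeles k E K).hom x = ideleInvEquiv k E K x := rfl

theorem map_invariantsToIdeles_eq (n : ℕ) :
    groupCohomology.map (quotGalEquiv k E K).symm.toMonoidHom (invariantsToIdeles k E K) n =
      (ideleQuotIso k E K n).hom :=
  map_congr (MonoidHom.ext fun σ => rfl) (by ext x; rfl) n

theorem map_invariantsToIdeles_bijective (n : ℕ) :
    Function.Bijective
      (groupCohomology.map (quotGalEquiv k E K).symm.toMonoidHom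
        (invariantsToIdeles k E K) n).hom := by
  rw [map_invariantsToIdeles_eq]
  exact ConcreteCategory.bijective_of_isIso (ideleQuotIso k E K n).hom

/-- Transfer of vanishing: `Hⁿ(Gal(E/k), J_E) = 0` gives
`Hⁿ(Gal(K/k) ⧸ Gal(K/E), (J_K)^{Gal(K/E)}) = 0`. -/
theorem isZero_quotientToInvariants_ideleRep (n : ℕ)
    (h : Limits.IsZero (groupCohomology (ideleRep k E) n)) :
    Limits.IsZero
      (groupCohomology ((ideleRep k K).quotientToInvariants (fixSubgroup k E K)) n) :=
  Limits.IsZero.of_iso h (ideleQuotIso k E K n)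

end Quot

end Fermat.Agent.S55.H86
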