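/-
Program C (S55), package C8 export (B4), presentation leaves — helper86.

Restriction part (R): for a tower `k ⊆ E ⊆ K` the idele module `H88.ideleRep k K` and the idele
class module `H88.ideleClassRep k K`, restricted to `Gal(K/E) = H88.fixSubgroup k E K`, are
`H88.ideleRep E K` and `H88.ideleClassRep E K` (change of presentation, in the style of
`H88.subH2` / `H79.subH2Iso`).

* `resIdeleHom`, `ideleSubIso n`;
* `resIdeleClassHom`, `resIdeleClassEquiv`, `ideleClassSubIso n`;
* the squares with `ideleDiag`, `ideleClassProj` and `H88.resUnitsHom`.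
-/
import Mathlib
import Fermat.Agent.S55.H79.SubPres
import Fermat.Agent.S55.H88.IdeleRep

set_option autoImplicit false
set_option linter.unusedSectionVars false
set_option linter.unusedVariables false

open CategoryTheory groupCohomology Rep

noncomputable section

namespace Fermat.Agent.S55.H86

open Fermat.Agent.S55.H88 Fermat.Agent.S55.H79

attribute [local instance] factOfPrimes

section Sub

variable (k E K : Type) [Field k] [Field E] [Field K] [Algebra k E] [Algebra E K] [Algebra k K]
  [IsScalarTower k E K]

/-- The identification of `J_K` as a `Gal(K/E)`-module with the restriction of `J_K` as a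
`Gal(K/k)`-module (identity on the carrier). -/
def resIdeleHom :
    Rep.res (galToFix k E K) (Rep.res (fixSubgroup k E K).subtype (ideleRep k K)) ⟶
      ideleRep E K :=
  Rep.ofHom ⟨LinearMap.id, fun _ => rfl⟩

theorem resIdele_comm (g : K ≃ₐ[E] K) :
    (LinearEquiv.refl ℤ (ideleRep E K).V).toLinearMap ∘ₗ (ideleRep E K).ρ g =
      (Rep.res (fixSubgroup k E K).subtype (ideleRep k K)).ρ (galFixEquiv k E K g) ∘ₗ
        (LinearEquiv.refl ℤ (ideleRep E K).V).toLinearMap :=
  rfl

/-- `Hⁿ(Gal(K/E), J_K) ≅ Hⁿ(fixSubgroup k E K, J_K)`. -/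
def ideleSubIso (n : ℕ) :
    groupCohomology (ideleRep E K) n ≅
      groupCohomology (Rep.res (fixSubgroup k E K).subtype (ideleRep k K)) n :=
  mapIso (galFixEquiv k E K) (LinearEquiv.refl ℤ (ideleRep E K).V) (resIdele_comm k E K) n

theorem map_resIdeleHom_eq (n : ℕ) :
    groupCohomology.map (galToFix k E K) (resIdeleHom k E K) n = (ideleSubIso k E K n).inv :=
  map_congr (MonoidHom.ext fun σ => rfl) (by ext x; rfl) n

theorem map_resIdeleHom_bijective (n : ℕ) :
    Function.Bijective (groupCohomology.map (galToFix k E K) (resIdeleHom k E K) n).hom := by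
  rw [map_resIdeleHom_eq]
  exact ConcreteCategory.bijective_of_isIso (ideleSubIso k E K n).inv

end Sub


section SubClass

variable (k E K : Type) [Field k] [Field E] [Field K] [Algebra k E] [Algebra E K] [Algebra k K]
  [IsScalarTower k E K] [NumberField K]

/-- The principal ideles do not depend on the base field of the presentation. -/
theorem idelePrincipal_base : idelePrincipal E K = idelePrincipal k K := rfl

/-- The identification of `C_K` as a `Gal(K/E)`-module with the restriction of `C_K` as a
`Gal(K/k)`-module (identity on the carrier). -/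
def resIdeleClassHom :
    Rep.res (galToFix k E K) (Rep.res (fixSubgroup k E K).subtype (ideleClassRep k K)) ⟶
      ideleClassRep E K :=
  Rep.ofHom
    (ρ := (Rep.res (galToFix k E K) (Rep.res (fixSubgroup k E K).subtype (ideleClassRep k K))).ρ)
    (σ := (ideleClassRep E K).ρ) ⟨LinearMap.id, fun _ => rfl⟩

theorem resIdeleClassHom_apply
    (x : (Rep.res (galToFix k E K) (Rep.res (fixSubgroup k E K).subtype (ideleClassRep k K))).V) :
    (resIdeleClassHom k E K).hom x = x := rfl

theorem resIdeleClass_comm (g : K ≃ₐ[E] K) :
    (LinearEquiv.refl ℤ (ideleClassRep E K).V).toLinearMap ∘ₗ (ideleClassRep E K).ρ g =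
      (Rep.res (fixSubgroup k E K).subtype (ideleClassRep k K)).ρ (galFixEquiv k E K g) ∘ₗ
        (LinearEquiv.refl ℤ (ideleClassRep E K).V).toLinearMap :=
  rfl

/-- `Hⁿ(Gal(K/E), C_K) ≅ Hⁿ(fixSubgroup k E K, C_K)`. -/
def ideleClassSubIso (n : ℕ) :
    groupCohomology (ideleClassRep E K) n ≅
      groupCohomology (Rep.res (fixSubgroup k E K).subtype (ideleClassRep k K)) n :=
  mapIso (galFixEquiv k E K) (LinearEquiv.refl ℤ (ideleClassRep E K).V)
    (resIdeleClass_comm k E K) n

theorem map_resIdeleClassHom_eq (n : ℕ) :
    groupCohomology.map (galToFix k E K) (resIdeleClassHom k E K) n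
      = (ideleClassSubIso k E K n).inv :=
  map_congr (MonoidHom.ext fun σ => rfl) (by ext x; rfl) n

theorem map_resIdeleClassHom_bijective (n : ℕ) :
    Function.Bijective
      (groupCohomology.map (galToFix k E K) (resIdeleClassHom k E K) n).hom := by
  rw [map_resIdeleClassHom_eq]
  exact ConcreteCategory.bijective_of_isIso (ideleClassSubIso k E K n).inv

/-- The square `res (ideleDiag k K) ≫ resIdeleHom = resUnitsHom ≫ ideleDiag E K`. -/
theorem resIdeleHom_diag :
    (Rep.resFunctor (galToFix k E K)).map
        ((Rep.resFunctor (fixSubgroup k E K).subtype).map (ideleDiag k K)) ≫ resIdeleHom k E K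
      = resUnitsHom k E K ≫ ideleDiag E K :=
  rfl

/-- The square `res (ideleClassProj k K) ≫ resIdeleClassHom = resIdeleHom ≫ ideleClassProj E K`. -/
theorem resIdeleClassHom_proj :
    (Rep.resFunctor (galToFix k E K)).map
        ((Rep.resFunctor (fixSubgroup k E K).subtype).map (ideleClassProj k K)) ≫
        resIdeleClassHom k E K
      = resIdeleHom k E K ≫ ideleClassProj E K :=
  rfl

end SubClass

end Fermat.Agent.S55.H86
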