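/-
Program C (S55), package C8 export (B4), presentation leaves — helper86.

Invariants part for the idele class module (Q-C): for a tower `k ⊆ E ⊆ K` of number fields with
`K / k` finite Galois and `E / k` normal, the `Gal(K/E)`-invariants of `C_K = J_K / Kˣ` are
`C_E`, as representations of `Gal(K/k) ⧸ Gal(K/E) ≃ Gal(E/k)` (Hilbert 90).

* `exists_mul_diag_fixed` : Hilbert 90 for idele classes (group level);
* `classUpLin`, `classesToInvariants`, `classesToInvariants_bijective`, `ideleClassInvEquiv`;
* `invariantsToIdeleClasses`, `ideleClassQuotIso n`, `map_invariantsToIdeleClasses_bijective`;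
* the squares `invariantsToIdeles_diag`, `invariantsToIdeleClasses_proj`;
* `ideleShortComplex_invariants_shortExact` : `0 → (Kˣ)^N → (J_K)^N → (C_K)^N → 0` is exact
  (`hjπN` of `H29.h3_of_lift` for `U = M = Kˣ`).
-/
import Mathlib
import Fermat.Agent.S55.H29.C8H3
import Fermat.Agent.S55.H86.IdeleQuot
import Fermat.Agent.S55.H86.IdeleSub

set_option autoImplicit false
set_option linter.unusedSectionVars false
set_option linter.unusedVariables false
set_option linter.style.haveILetI false

open CategoryTheory groupCohomology Rep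

noncomputable section

namespace Fermat.Agent.S55.H86

open Fermat.Agent.S55.H88 Fermat.Agent.S55.H79

attribute [local instance] factOfPrimes

section H90

variable (E K : Type) [Field E] [Field K] [Algebra E K] [NumberField K]

/-- The diagonal embedding is equivariant. -/
theorem smul_ideleDiagHom (σ : K ≃ₐ[E] K) (u : Kˣ) :
    σ • ideleDiagHom K u = ideleDiagHom K (σ • u) := by
  refine Subtype.ext (funext fun q => Units.ext (Subtype.ext (funext fun τ => ?_)))
  show τ (σ (u : K)) = τ ((σ • u : Kˣ) : K)
  rfl

/-- **Hilbert 90 for idele classes** (group level): an idele of `K` that is moved by every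
element of `Gal(K/E)` only by a principal idele can be made `Gal(K/E)`-invariant by multiplying
with a principal idele. -/
theorem exists_mul_diag_fixed [FiniteDimensional E K] (x : ideleGroup K)
    (hx : ∀ σ : K ≃ₐ[E] K, ∃ a : Kˣ, σ • x = x * ideleDiagHom K a) :
    ∃ β : Kˣ, ∀ σ : K ≃ₐ[E] K, σ • (x * ideleDiagHom K β) = x * ideleDiagHom K β := by
  choose a ha using hx
  have hcoc : IsMulCocycle₁ a := by
    intro σ τ
    apply ideleDiagHom_injective K
    have h1 : x * ideleDiagHom K (a (σ * τ)) = x * ideleDiagHom K (σ • a τ * a σ) :=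
      calc x * ideleDiagHom K (a (σ * τ)) = (σ * τ) • x := (ha (σ * τ)).symm
        _ = σ • (τ • x) := mul_smul σ τ x
        _ = σ • (x * ideleDiagHom K (a τ)) := congrArg (fun z => σ • z) (ha τ)
        _ = σ • x * σ • ideleDiagHom K (a τ) := smul_mul' σ x _
        _ = x * ideleDiagHom K (a σ) * ideleDiagHom K (σ • a τ) :=
            congrArg₂ (· * ·) (ha σ) (smul_ideleDiagHom E K σ (a τ))
        _ = x * (ideleDiagHom K (a σ) * ideleDiagHom K (σ • a τ)) := mul_assoc _ _ _
        _ = x * ideleDiagHom K (a σ * σ • a τ) :=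
            congrArg (fun z => x * z) ((ideleDiagHom K).map_mul (a σ) (σ • a τ)).symm
        _ = x * ideleDiagHom K (σ • a τ * a σ) :=
            congrArg (fun z => x * ideleDiagHom K z) (mul_comm (a σ) (σ • a τ))
    exact mul_left_cancel h1
  obtain ⟨β, hβ⟩ := isMulCoboundary₁_of_isMulCocycle₁_of_aut_to_units a hcoc
  refine ⟨β⁻¹, fun σ => ?_⟩
  exact
    calc σ • (x * ideleDiagHom K β⁻¹) = σ • x * σ • ideleDiagHom K β⁻¹ := smul_mul' σ x _
      _ = x * ideleDiagHom K (a σ) * ideleDiagHom K (σ • β⁻¹) :=
          congrArg₂ (· * ·) (ha σ) (smul_ideleDiagHom E K σ β⁻¹)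
      _ = x * (ideleDiagHom K (a σ) * ideleDiagHom K (σ • β⁻¹)) := mul_assoc _ _ _
      _ = x * ideleDiagHom K (a σ * σ • β⁻¹) :=
          congrArg (fun z => x * z) ((ideleDiagHom K).map_mul (a σ) (σ • β⁻¹)).symm
      _ = x * ideleDiagHom K β⁻¹ :=
          congrArg (fun z => x * ideleDiagHom K z) (by
            rw [← hβ σ, smul_inv', div_eq_mul_inv, mul_comm (σ • β) β⁻¹, mul_assoc,
              mul_inv_cancel, mul_one])

/-- An element of `Kˣ` fixed by `Gal(K/E)` comes from `Eˣ`. -/
theorem exists_units_map_eq [IsGalois E K] [FiniteDimensional E K] (b : Kˣ)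
    (hb : ∀ σ : K ≃ₐ[E] K, σ (b : K) = b) :
    ∃ e : Eˣ, Units.map (algebraMap E K : E →* K) e = b := by
  obtain ⟨e, he⟩ := (IsGalois.mem_range_algebraMap_iff_fixed (F := E) _).mpr hb
  have he0 : e ≠ 0 := by
    rintro rfl
    rw [map_zero] at he
    exact b.ne_zero he.symm
  exact ⟨Units.mk0 e he0, Units.ext he⟩

end H90

section Proj

variable (k K : Type) [Field k] [Field K] [Algebra k K] [NumberField K]

theorem ideleClassProj_surjective (x : (ideleClassRep k K).V) :
    ∃ y : (ideleRep k K).V, (ideleClassProj k K).hom y = x :=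
  Submodule.mkQ_surjective (idelePrincipal k K) x

theorem ideleClassProj_eq_zero_iff (y : (ideleRep k K).V) :
    (ideleClassProj k K).hom y = 0 ↔ ∃ b : (Rep.ofAlgebraAutOnUnits k K).V,
      (ideleDiag k K).hom b = y :=
  Submodule.Quotient.mk_eq_zero (idelePrincipal k K)

end Proj

section QuotClass

variable (k E K : Type) [Field k] [Field E] [Field K] [Algebra k E] [Algebra E K] [Algebra k K]
  [IsScalarTower k E K] [Normal k E] [IsGalois k K] [FiniteDimensional k K]
  [NumberField E] [NumberField K]

/-- Base change of units, as a linear map `Eˣ → Kˣ`. -/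
def unitsUpLin : (Rep.ofAlgebraAutOnUnits k E).V →ₗ[ℤ] (Rep.ofAlgebraAutOnUnits k K).V :=
  (MonoidHom.toAdditive (Units.map (algebraMap E K : E →* K))).toIntLinearMap

theorem ideleUpLin_diag (u : (Rep.ofAlgebraAutOnUnits k E).V) :
    ideleUpLin k E K ((ideleDiag k E).hom u) = (ideleDiag k K).hom (unitsUpLin k E K u) :=
  congrArg Additive.ofMul (ideleUpHom_diag E K (Additive.toMul u))

theorem idelePrincipal_le_comap_up :
    idelePrincipal k E ≤ (idelePrincipal k K).comap (ideleUpLin k E K) := by
  rintro _ ⟨u, rfl⟩
  exact ⟨unitsUpLin k E K u, (ideleUpLin_diag k E K u).symm⟩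

/-- Base change of idele classes, as a linear map `C_E → C_K`. -/
def classUpLin : (ideleClassRep k E).V →ₗ[ℤ] (ideleClassRep k K).V :=
  Submodule.mapQ (idelePrincipal k E) (idelePrincipal k K) (ideleUpLin k E K)
    (idelePrincipal_le_comap_up k E K)

theorem classUpLin_proj (u : (ideleRep k E).V) :
    classUpLin k E K ((ideleClassProj k E).hom u)
      = (ideleClassProj k K).hom (ideleUpLin k E K u) := rfl

theorem ideleUpLin_smul (σ : K ≃ₐ[k] K) (u : (ideleRep k E).V) :
    (ideleRep k K).ρ σ (ideleUpLin k E K u)
      = ideleUpLin k E K ((ideleRep k E).ρ (σ.restrictNormal E) u) :=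
  congrArg Additive.ofMul (smul_ideleUpHom k E K σ (σ.restrictNormal E)
    (fun e => (AlgEquiv.restrictNormal_commutes σ E e).symm) (Additive.toMul u))

theorem classUpLin_smul (σ : K ≃ₐ[k] K) (c : (ideleClassRep k E).V) :
    (ideleClassRep k K).ρ σ (classUpLin k E K c)
      = classUpLin k E K ((ideleClassRep k E).ρ (σ.restrictNormal E) c) := by
  obtain ⟨u, rfl⟩ := ideleClassProj_surjective k E c
  show (ideleClassProj k K).hom ((ideleRep k K).ρ σ (ideleUpLin k E K u))
    = (ideleClassProj k K).hom (ideleUpLin k E K ((ideleRep k E).ρ (σ.restrictNormal E) u))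
  rw [ideleUpLin_smul]

theorem restrictNormal_eq_one_of_mem (h : fixSubgroup k E K) :
    (h : K ≃ₐ[k] K).restrictNormal E = 1 := by
  have h1 : (h : K ≃ₐ[k] K) ∈ (AlgEquiv.restrictNormalHom (F := k) (K₁ := K) E).ker := by
    rw [← fixSubgroup_eq_ker]
    exact h.2
  exact h1

theorem classUpLin_mem_invariants (c : (ideleClassRep k E).V) :
    classUpLin k E K c ∈
      Representation.invariants ((ideleClassRep k K).ρ.comp (fixSubgroup k E K).subtype) := by
  intro h
  have h1 := classUpLin_smul k E K (h : K ≃ₐ[k] K) c
  rw [restrictNormal_eq_one_of_mem k E K h, map_one] at h1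
  exact h1

/-- `C_E → (C_K)^{Gal(K/E)}`. -/
def classesToInvariants :
    (ideleClassRep k E).V →ₗ[ℤ]
      Representation.invariants ((ideleClassRep k K).ρ.comp (fixSubgroup k E K).subtype) :=
  LinearMap.codRestrict _ (classUpLin k E K) (classUpLin_mem_invariants k E K)

theorem coe_classesToInvariants (c : (ideleClassRep k E).V) :
    ((classesToInvariants k E K c : Representation.invariants
      ((ideleClassRep k K).ρ.comp (fixSubgroup k E K).subtype)) : (ideleClassRep k K).V)
      = classUpLin k E K c := rfl

theorem classesToInvariants_injective : Function.Injective (classesToInvariants k E K) := by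
  haveI : IsGalois E K := IsGalois.tower_top_of_isGalois k E K
  haveI : FiniteDimensional E K := Module.Finite.right k E K
  rw [← LinearMap.ker_eq_bot, LinearMap.ker_eq_bot']
  intro c hc
  obtain ⟨u, rfl⟩ := ideleClassProj_surjective k E c
  have h0 : (ideleClassProj k K).hom (ideleUpLin k E K u) = 0 := congrArg Subtype.val hc
  obtain ⟨b, hb⟩ := (ideleClassProj_eq_zero_iff k K _).1 h0
  have hb' : ideleDiagHom K (Additive.toMul (α := Kˣ) b) = ideleUpHom E K (Additive.toMul (α := ideleGroup E) u) :=
    congrArg Additive.toMul hb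
  have hfix : ∀ σ : K ≃ₐ[E] K,
      σ (Additive.toMul (α := Kˣ) b : K) = (Additive.toMul (α := Kˣ) b : K) := by
    intro σ
    have h1 : ideleDiagHom K (σ • Additive.toMul (α := Kˣ) b) = ideleDiagHom K (Additive.toMul (α := Kˣ) b) :=
      calc ideleDiagHom K (σ • Additive.toMul (α := Kˣ) b)
          = σ • ideleDiagHom K (Additive.toMul (α := Kˣ) b) := (smul_ideleDiagHom E K σ _).symm
        _ = σ • ideleUpHom E K (Additive.toMul (α := ideleGroup E) u) := congrArg (fun z => σ • z) hb'
        _ = ideleUpHom E K ((1 : E ≃ₐ[E] E) • Additive.toMul (α := ideleGroup E) u) :=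
            smul_ideleUpHom E E K σ 1 (fun e => σ.commutes e) _
        _ = ideleUpHom E K (Additive.toMul (α := ideleGroup E) u) := congrArg (ideleUpHom E K) (one_smul _ _)
        _ = ideleDiagHom K (Additive.toMul (α := Kˣ) b) := hb'.symm
    exact congrArg (fun z : Kˣ => (z : K)) (ideleDiagHom_injective K h1)
  obtain ⟨e, he⟩ := exists_units_map_eq E K (Additive.toMul (α := Kˣ) b) hfix
  have h2 : ideleUpHom E K (ideleDiagHom E e) = ideleUpHom E K (Additive.toMul (α := ideleGroup E) u) :=
    ((ideleUpHom_diag E K e).trans (congrArg (ideleDiagHom K) he)).trans hb'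
  have h3 : ideleDiagHom E e = Additive.toMul (α := ideleGroup E) u := ideleUpHom_injective E K h2
  exact (ideleClassProj_eq_zero_iff k E u).2 ⟨Additive.ofMul e, congrArg Additive.ofMul h3⟩

/-- **Hilbert 90 for idele classes** (module level): a `Gal(K/E)`-invariant idele class of `K` is
the class of a `Gal(K/E)`-invariant idele. -/
theorem exists_invariant_lift (c : (ideleClassRep k K).V)
    (hc : c ∈ Representation.invariants
      ((ideleClassRep k K).ρ.comp (fixSubgroup k E K).subtype)) :
    ∃ x : (ideleRep k K).V,
      x ∈ Representation.invariants ((ideleRep k K).ρ.comp (fixSubgroup k E K).subtype) ∧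
        (ideleClassProj k K).hom x = c := by
  haveI : IsGalois E K := IsGalois.tower_top_of_isGalois k E K
  haveI : FiniteDimensional E K := Module.Finite.right k E K
  obtain ⟨x, rfl⟩ := ideleClassProj_surjective k K c
  have hx : ∀ σ : K ≃ₐ[E] K, ∃ a : Kˣ,
      σ • Additive.toMul (α := ideleGroup K) x = Additive.toMul (α := ideleGroup K) x * ideleDiagHom K a := by
    intro σ
    have h1 : (ideleClassProj k K).hom ((ideleRep k K).ρ (galToFix k E K σ : K ≃ₐ[k] K) x)
        = (ideleClassProj k K).hom x := hc (galToFix k E K σ)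
    have h2 : (ideleClassProj k K).hom
        ((ideleRep k K).ρ (galToFix k E K σ : K ≃ₐ[k] K) x - x) = 0 :=
      (map_sub (ideleClassProj k K).hom _ _).trans (sub_eq_zero.2 h1)
    obtain ⟨a, ha⟩ := (ideleClassProj_eq_zero_iff k K _).1 h2
    refine ⟨Additive.toMul (α := Kˣ) a, ?_⟩
    have ha' : ideleDiagHom K (Additive.toMul (α := Kˣ) a)
        = (σ • Additive.toMul (α := ideleGroup K) x) / Additive.toMul (α := ideleGroup K) x := congrArg Additive.toMul ha
    exact (mul_div_cancel (Additive.toMul (α := ideleGroup K) x) _).symm.trans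
      (congrArg (fun z => Additive.toMul (α := ideleGroup K) x * z) ha'.symm)
  obtain ⟨β, hβ⟩ := exists_mul_diag_fixed E K (Additive.toMul (α := ideleGroup K) x) hx
  refine ⟨x + (ideleDiag k K).hom (Additive.ofMul β), fun h => ?_, ?_⟩
  · obtain ⟨σ, hσ⟩ := galToFix_surjective k E K h
    rw [← hσ]
    exact congrArg Additive.ofMul (hβ σ)
  · exact (map_add (ideleClassProj k K).hom _ _).trans
      ((congrArg (fun z => (ideleClassProj k K).hom x + z)
        ((ideleClassProj_eq_zero_iff k K _).2 ⟨_, rfl⟩)).trans (add_zero _))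

theorem classesToInvariants_surjective : Function.Surjective (classesToInvariants k E K) := by
  haveI : IsGalois E K := IsGalois.tower_top_of_isGalois k E K
  haveI : FiniteDimensional E K := Module.Finite.right k E K
  rintro ⟨c, hc⟩
  obtain ⟨x, hx, rfl⟩ := exists_invariant_lift k E K c hc
  obtain ⟨u, hu⟩ := (idelesToInvariants_bijective k E K).2 ⟨x, hx⟩
  refine ⟨(ideleClassProj k E).hom u, Subtype.ext ?_⟩
  show (ideleClassProj k K).hom (ideleUpLin k E K u) = (ideleClassProj k K).hom x
  exact congrArg (ideleClassProj k K).hom (congrArg Subtype.val hu)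

theorem classesToInvariants_bijective : Function.Bijective (classesToInvariants k E K) :=
  ⟨classesToInvariants_injective k E K, classesToInvariants_surjective k E K⟩

/-- The linear equivalence `(C_K)^{Gal(K/E)} ≃ C_E`. -/
def ideleClassInvEquiv :
    ((ideleClassRep k K).quotientToInvariants (fixSubgroup k E K)).V ≃ₗ[ℤ]
      (ideleClassRep k E).V :=
  (LinearEquiv.ofBijective (classesToInvariants k E K)
    (classesToInvariants_bijective k E K)).symm

theorem ideleClassInvEquiv_classesToInvariants (c : (ideleClassRep k E).V) :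
    ideleClassInvEquiv k E K (classesToInvariants k E K c) = c :=
  (LinearEquiv.ofBijective (classesToInvariants k E K)
    (classesToInvariants_bijective k E K)).symm_apply_apply c

theorem classesToInvariants_ideleClassInvEquiv
    (x : ((ideleClassRep k K).quotientToInvariants (fixSubgroup k E K)).V) :
    classesToInvariants k E K (ideleClassInvEquiv k E K x) = x :=
  (LinearEquiv.ofBijective (classesToInvariants k E K)
    (classesToInvariants_bijective k E K)).apply_symm_apply x

/-- Equivariance of `classesToInvariants`. -/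
theorem classesToInvariants_smul (σ : K ≃ₐ[k] K) (c : (ideleClassRep k E).V) :
    ((ideleClassRep k K).quotientToInvariants (fixSubgroup k E K)).ρ
        (QuotientGroup.mk σ) (classesToInvariants k E K c)
      = classesToInvariants k E K ((ideleClassRep k E).ρ (σ.restrictNormal E) c) :=
  Subtype.ext (classUpLin_smul k E K σ c)

theorem ideleClassInv_comm (g : (K ≃ₐ[k] K) ⧸ fixSubgroup k E K) :
    (ideleClassInvEquiv k E K).toLinearMap ∘ₗ
        ((ideleClassRep k K).quotientToInvariants (fixSubgroup k E K)).ρ g =
      (ideleClassRep k E).ρ (quotGalEquiv k E K g) ∘ₗ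
        (ideleClassInvEquiv k E K).toLinearMap := by
  refine LinearMap.ext fun x => ?_
  obtain ⟨σ, rfl⟩ := QuotientGroup.mk_surjective g
  obtain ⟨c, rfl⟩ := (classesToInvariants_bijective k E K).2 x
  show ideleClassInvEquiv k E K
      (((ideleClassRep k K).quotientToInvariants (fixSubgroup k E K)).ρ
        (QuotientGroup.mk σ) (classesToInvariants k E K c))
    = (ideleClassRep k E).ρ (quotGalEquiv k E K (QuotientGroup.mk σ))
      (ideleClassInvEquiv k E K (classesToInvariants k E K c))
  rw [classesToInvariants_smul, ideleClassInvEquiv_classesToInvariants,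
    ideleClassInvEquiv_classesToInvariants, quotGalEquiv_mk]

/-- `Hⁿ(Gal(K/k) ⧸ Gal(K/E), (C_K)^{Gal(K/E)}) ≅ Hⁿ(Gal(E/k), C_E)`. -/
def ideleClassQuotIso (n : ℕ) :
    groupCohomology ((ideleClassRep k K).quotientToInvariants (fixSubgroup k E K)) n ≅
      groupCohomology (ideleClassRep k E) n :=
  mapIso (quotGalEquiv k E K) (ideleClassInvEquiv k E K) (ideleClassInv_comm k E K) n

/-- `(C_K)^{Gal(K/E)} → C_E` as a morphism of representations of `Gal(E/k)`. -/
def invariantsToIdeleClasses :
    Rep.res (quotGalEquiv k E K).symm.toMonoidHom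
        ((ideleClassRep k K).quotientToInvariants (fixSubgroup k E K)) ⟶ ideleClassRep k E :=
  Rep.ofHom
    (ρ := (Rep.res (quotGalEquiv k E K).symm.toMonoidHom
        ((ideleClassRep k K).quotientToInvariants (fixSubgroup k E K))).ρ)
    (σ := (ideleClassRep k E).ρ)
    ⟨(ideleClassInvEquiv k E K).toLinearMap, fun γ => by
      have h := ideleClassInv_comm k E K ((quotGalEquiv k E K).symm γ)
      rw [MulEquiv.apply_symm_apply] at h
      exact h⟩

theorem invariantsToIdeleClasses_apply
    (x : ((ideleClassRep k K).quotientToInvariants (fixSubgroup k E K)).V) :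
    (invariantsToIdeleClasses k E K).hom x = ideleClassInvEquiv k E K x := rfl

theorem map_invariantsToIdeleClasses_eq (n : ℕ) :
    groupCohomology.map (quotGalEquiv k E K).symm.toMonoidHom
        (invariantsToIdeleClasses k E K) n = (ideleClassQuotIso k E K n).hom :=
  map_congr (MonoidHom.ext fun σ => rfl) (by ext x; rfl) n

theorem map_invariantsToIdeleClasses_bijective (n : ℕ) :
    Function.Bijective
      (groupCohomology.map (quotGalEquiv k E K).symm.toMonoidHom
        (invariantsToIdeleClasses k E K) n).hom := by
  rw [map_invariantsToIdeleClasses_eq]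
  exact ConcreteCategory.bijective_of_isIso (ideleClassQuotIso k E K n).hom

/-- Transfer of vanishing for the idele class module. -/
theorem isZero_quotientToInvariants_ideleClassRep_iff (n : ℕ) :
    Limits.IsZero
        (groupCohomology ((ideleClassRep k K).quotientToInvariants (fixSubgroup k E K)) n) ↔
      Limits.IsZero (groupCohomology (ideleClassRep k E) n) :=
  (ideleClassQuotIso k E K n).isZero_iff

/-- Transfer of cardinalities for the idele class module. -/
theorem natCard_quotientToInvariants_ideleClassRep (n : ℕ) :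
    Nat.card (groupCohomology ((ideleClassRep k K).quotientToInvariants (fixSubgroup k E K)) n)
      = Nat.card (groupCohomology (ideleClassRep k E) n) :=
  Nat.card_congr (Equiv.ofBijective _ (ConcreteCategory.bijective_of_isIso
    (ideleClassQuotIso k E K n).hom))

/-- The square `(ideleDiag k K)^N ≫ invariantsToIdeles = invariantsToUnits ≫ ideleDiag k E`. -/
theorem invariantsToIdeles_diag :
    (Rep.resFunctor (quotGalEquiv k E K).symm.toMonoidHom).map
        ((quotientToInvariantsFunctor ℤ (fixSubgroup k E K)).map (ideleDiag k K)) ≫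
        invariantsToIdeles k E K
      = invariantsToUnits k E K ≫ ideleDiag k E := by
  apply Rep.hom_ext
  apply Representation.IntertwiningMap.ext
  refine LinearMap.ext fun x => ?_
  obtain ⟨u, rfl⟩ := (unitsToInvariants_bijective k E K).2 x
  have h1 : ((quotientToInvariantsFunctor ℤ (fixSubgroup k E K)).map (ideleDiag k K)).hom
      (unitsToInvariants k E K u) = idelesToInvariants k E K ((ideleDiag k E).hom u) :=
    Subtype.ext (ideleUpLin_diag k E K u).symm
  have h2 : (invariantsToUnits k E K).hom (unitsToInvariants k E K u) = u :=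
    (LinearEquiv.ofBijective (unitsToInvariants k E K)
      (unitsToInvariants_bijective k E K)).symm_apply_apply u
  show ideleInvEquiv k E K
      (((quotientToInvariantsFunctor ℤ (fixSubgroup k E K)).map (ideleDiag k K)).hom
        (unitsToInvariants k E K u))
    = (ideleDiag k E).hom ((invariantsToUnits k E K).hom (unitsToInvariants k E K u))
  rw [h1, h2, ideleInvEquiv_idelesToInvariants]

/-- The square
`(ideleClassProj k K)^N ≫ invariantsToIdeleClasses = invariantsToIdeles ≫ ideleClassProj k E`. -/
theorem invariantsToIdeleClasses_proj :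
    (Rep.resFunctor (quotGalEquiv k E K).symm.toMonoidHom).map
        ((quotientToInvariantsFunctor ℤ (fixSubgroup k E K)).map (ideleClassProj k K)) ≫
        invariantsToIdeleClasses k E K
      = invariantsToIdeles k E K ≫ ideleClassProj k E := by
  apply Rep.hom_ext
  apply Representation.IntertwiningMap.ext
  refine LinearMap.ext fun x => ?_
  obtain ⟨u, rfl⟩ := (idelesToInvariants_bijective k E K).2 x
  have h1 : ((quotientToInvariantsFunctor ℤ (fixSubgroup k E K)).map (ideleClassProj k K)).hom
      (idelesToInvariants k E K u) = classesToInvariants k E K ((ideleClassProj k E).hom u) :=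
    Subtype.ext rfl
  show ideleClassInvEquiv k E K
      (((quotientToInvariantsFunctor ℤ (fixSubgroup k E K)).map (ideleClassProj k K)).hom
        (idelesToInvariants k E K u))
    = (ideleClassProj k E).hom (ideleInvEquiv k E K (idelesToInvariants k E K u))
  rw [h1, ideleClassInvEquiv_classesToInvariants, ideleInvEquiv_idelesToInvariants]

theorem ideleDiag_hom_injective : Function.Injective (ideleDiag k K).hom := fun a b h =>
  congrArg Additive.ofMul (ideleDiagHom_injective K (congrArg Additive.toMul h))

/-- `0 → (Kˣ)^N → (J_K)^N → (C_K)^N → 0` is short exact for `N = Gal(K/E)` (Hilbert 90): the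
hypothesis `hjπN` of `H29.h3_of_lift` for the idele sequence. -/
theorem ideleShortComplex_invariants_shortExact :
    ((ideleShortComplex k K).map
      (quotientToInvariantsFunctor ℤ (fixSubgroup k E K))).ShortExact where
  exact := (rep_exact_iff _).2 fun x hx => by
    have h0 : (ideleClassProj k K).hom x.1 = 0 := congrArg Subtype.val hx
    obtain ⟨b, hb⟩ := (ideleClassProj_eq_zero_iff k K _).1 h0
    have hbinv : b ∈ Representation.invariants
        ((Rep.ofAlgebraAutOnUnits k K).ρ.comp (fixSubgroup k E K).subtype) := by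
      intro h
      apply ideleDiag_hom_injective k K
      have e1 := Rep.hom_comm_apply (ideleDiag k K) (h : K ≃ₐ[k] K) b
      exact e1.trans ((congrArg ((ideleRep k K).ρ (h : K ≃ₐ[k] K)) hb).trans
        ((x.2 h).trans hb.symm))
    exact ⟨⟨b, hbinv⟩, Subtype.ext hb⟩
  mono_f := (Rep.mono_iff_injective _).2 fun a b h =>
    Subtype.ext (ideleDiag_hom_injective k K (congrArg Subtype.val h))
  epi_g := (Rep.epi_iff_surjective _).2 fun c => by
    obtain ⟨x, hx, hxc⟩ := exists_invariant_lift k E K c.1 c.2
    exact ⟨⟨x, hx⟩, Subtype.ext hxc⟩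

end QuotClass

end Fermat.Agent.S55.H86
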