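/-
Program C (S55), package C8 export (B4), presentation leaves — helper86.  Umbrella file.

For a tower `k ⊆ E ⊆ K` of number fields (`K / k` finite Galois, `N = H88.fixSubgroup k E K`):
cohomological consequences of the identifications of `IdeleSub.lean` (restriction to `Gal(K/E)`),
`IdeleQuot.lean` (`(J_K)^N = J_E`) and `IdeleClassQuot.lean` (`(C_K)^N = C_E`).

* `map_square` : a commuting square of representations (over a group homomorphism) gives a
  commuting square in cohomology;
* the naturality squares of the isomorphisms `ideleQuotIso`, `ideleClassQuotIso`, `H79.quotH2Iso`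
  and `ideleSubIso`, `ideleClassSubIso`, `H79.subH2Iso` with respect to `ideleDiag` and
  `ideleClassProj`;
* consumer forms for `H29.lift_of_towers` / `H29.h3_of_lift`.
-/
import Mathlib
import Fermat.Agent.S55.H86.IdeleSub
import Fermat.Agent.S55.H86.IdeleClassQuot

set_option autoImplicit false
set_option linter.unusedSectionVars false
set_option linter.unusedVariables false
set_option linter.style.haveILetI false

open CategoryTheory groupCohomology Rep

noncomputable section

namespace Fermat.Agent.S55.H86

open Fermat.Agent.S55.H88 Fermat.Agent.S55.H79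

attribute [local instance] factOfPrimes

/-- A commuting square of representations over a group homomorphism `e : H →* G` induces a
commuting square in cohomology. -/
theorem map_square {R G H : Type} [CommRing R] [Group G] [Group H] (e : H →* G)
    {A A' : Rep.{0, 0, 0} R G} {B B' : Rep.{0, 0, 0} R H} (f : A ⟶ A') (g : B ⟶ B')
    (a : Rep.res e A ⟶ B) (a' : Rep.res e A' ⟶ B')
    (sq : (Rep.resFunctor e).map f ≫ a' = a ≫ g) (n : ℕ) :
    groupCohomology.map (MonoidHom.id G) f n ≫ groupCohomology.map e a' n
      = groupCohomology.map e a n ≫ groupCohomology.map (MonoidHom.id H) g n := by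
  rw [← groupCohomology.map_comp (MonoidHom.id G) e f a' n,
    ← groupCohomology.map_comp e (MonoidHom.id H) a g n]
  exact map_congr rfl (congrArg (fun φ : Rep.res e A ⟶ B' => φ.hom.toLinearMap) sq) n

/-- Elementwise form of `map_square`. -/
theorem map_square_apply {R G H : Type} [CommRing R] [Group G] [Group H] (e : H →* G)
    {A A' : Rep.{0, 0, 0} R G} {B B' : Rep.{0, 0, 0} R H} (f : A ⟶ A') (g : B ⟶ B')
    (a : Rep.res e A ⟶ B) (a' : Rep.res e A' ⟶ B')
    (sq : (Rep.resFunctor e).map f ≫ a' = a ≫ g) (n : ℕ) (x : groupCohomology A n) :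
    (groupCohomology.map e a' n).hom ((groupCohomology.map (MonoidHom.id G) f n).hom x)
      = (groupCohomology.map (MonoidHom.id H) g n).hom ((groupCohomology.map e a n).hom x) :=
  congrArg (fun φ => φ.hom x) (map_square e f g a a' sq n)

section Quot

variable (k E K : Type) [Field k] [Field E] [Field K] [Algebra k E] [Algebra E K] [Algebra k K]
  [IsScalarTower k E K] [Normal k E] [IsGalois k K] [FiniteDimensional k K]
  [NumberField E] [NumberField K]

/-- `H79.map_quotGal_eq` in every degree. -/
theorem map_invariantsToUnits_eq (n : ℕ) :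
    groupCohomology.map (quotGalEquiv k E K).symm.toMonoidHom (invariantsToUnits k E K) n =
      (quotH2Iso k E K n).hom :=
  map_congr (MonoidHom.ext fun σ => rfl) (by ext x; rfl) n

/-- Naturality of the isomorphisms `(J_K)^N ≅ J_E`, `(C_K)^N ≅ C_E` for the projection `J → C`,
in cohomology. -/
theorem ideleClassQuotIso_proj (n : ℕ)
    (x : groupCohomology ((ideleRep k K).quotientToInvariants (fixSubgroup k E K)) n) :
    (ideleClassQuotIso k E K n).hom.hom
        ((groupCohomology.map (MonoidHom.id _)
          ((quotientToInvariantsFunctor ℤ (fixSubgroup k E K)).map (ideleClassProj k K)) n).hom x)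
      = (groupCohomology.map (MonoidHom.id _) (ideleClassProj k E) n).hom
          ((ideleQuotIso k E K n).hom.hom x) := by
  rw [← map_invariantsToIdeleClasses_eq, ← map_invariantsToIdeles_eq]
  exact map_square_apply _ _ _ _ _ (invariantsToIdeleClasses_proj k E K) n x

/-- Naturality of the isomorphisms `(Kˣ)^N ≅ Eˣ`, `(J_K)^N ≅ J_E` for the diagonal embedding, in
cohomology. -/
theorem ideleQuotIso_diag (n : ℕ)
    (x : groupCohomology
      ((Rep.ofAlgebraAutOnUnits k K).quotientToInvariants (fixSubgroup k E K)) n) :
    (ideleQuotIso k E K n).hom.hom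
        ((groupCohomology.map (MonoidHom.id _)
          ((quotientToInvariantsFunctor ℤ (fixSubgroup k E K)).map (ideleDiag k K)) n).hom x)
      = (groupCohomology.map (MonoidHom.id _) (ideleDiag k E) n).hom
          ((quotH2Iso k E K n).hom.hom x) := by
  rw [← map_invariantsToIdeles_eq, ← map_invariantsToUnits_eq]
  exact map_square_apply _ _ _ _ _ (invariantsToIdeles_diag k E K) n x

/-- Consumer form (`hsurj` of `H29.lift_of_towers`): surjectivity of `Hⁿ(J) → Hⁿ(C)` for the
layer `E / k` gives surjectivity of `Hⁿ(G/N, (J_K)^N) → Hⁿ(G/N, (C_K)^N)`. -/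
theorem surjective_mapHn_invariants_proj (n : ℕ)
    (h : Function.Surjective (H29.mapHn n (ideleClassProj k E))) :
    Function.Surjective (H29.mapHn n
      ((quotientToInvariantsFunctor ℤ (fixSubgroup k E K)).map (ideleClassProj k K))) := by
  intro y
  obtain ⟨x', hx'⟩ := h ((ideleClassQuotIso k E K n).hom.hom y)
  obtain ⟨x, rfl⟩ := (ConcreteCategory.bijective_of_isIso (ideleQuotIso k E K n).hom).2 x'
  refine ⟨x, (ConcreteCategory.bijective_of_isIso (ideleClassQuotIso k E K n).hom).1 ?_⟩
  exact (ideleClassQuotIso_proj k E K n x).trans hx'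

/-- Consumer form (`hJ3` of `H29.h3_of_lift` with `U = M = Kˣ`): if `Hⁿ(Gal(E/k), J_E) = 0` then
`Hⁿ(G/N, (Kˣ)^N) → Hⁿ(G/N, (J_K)^N)` is zero. -/
theorem mapHn_invariants_diag_eq_zero (n : ℕ)
    (h : Limits.IsZero (groupCohomology (ideleRep k E) n))
    (xu : groupCohomology
      ((Rep.ofAlgebraAutOnUnits k K).quotientToInvariants (fixSubgroup k E K)) n) :
    H29.mapHn n ((quotientToInvariantsFunctor ℤ (fixSubgroup k E K)).map (ideleDiag k K)) xu
      = 0 := by
  exact @Subsingleton.elim _
    (ModuleCat.subsingleton_of_isZero (isZero_quotientToInvariants_ideleRep k E K n h)) _ _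

end Quot

section Sub

variable (k E K : Type) [Field k] [Field E] [Field K] [Algebra k E] [Algebra E K] [Algebra k K]
  [IsScalarTower k E K] [NumberField K]

/-- `H79.map_galToFix_eq` in every degree. -/
theorem map_resUnitsHom_eq (n : ℕ) :
    groupCohomology.map (galToFix k E K) (resUnitsHom k E K) n = (subH2Iso k E K n).inv :=
  map_congr (MonoidHom.ext fun σ => rfl) (by ext x; rfl) n

/-- Naturality of the change of presentation (restriction to `Gal(K/E)`) for the projection
`J → C`, in cohomology. -/
theorem ideleClassSubIso_proj (n : ℕ)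
    (x : groupCohomology (Rep.res (fixSubgroup k E K).subtype (ideleRep k K)) n) :
    (ideleClassSubIso k E K n).inv.hom
        ((groupCohomology.map (MonoidHom.id _)
          ((Rep.resFunctor (fixSubgroup k E K).subtype).map (ideleClassProj k K)) n).hom x)
      = (groupCohomology.map (MonoidHom.id _) (ideleClassProj E K) n).hom
          ((ideleSubIso k E K n).inv.hom x) := by
  rw [← map_resIdeleClassHom_eq, ← map_resIdeleHom_eq]
  exact map_square_apply _ _ _ _ _ (resIdeleClassHom_proj k E K) n x

/-- Naturality of the change of presentation (restriction to `Gal(K/E)`) for the diagonal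
embedding, in cohomology. -/
theorem ideleSubIso_diag (n : ℕ)
    (x : groupCohomology
      (Rep.res (fixSubgroup k E K).subtype (Rep.ofAlgebraAutOnUnits k K)) n) :
    (ideleSubIso k E K n).inv.hom
        ((groupCohomology.map (MonoidHom.id _)
          ((Rep.resFunctor (fixSubgroup k E K).subtype).map (ideleDiag k K)) n).hom x)
      = (groupCohomology.map (MonoidHom.id _) (ideleDiag E K) n).hom
          ((subH2Iso k E K n).inv.hom x) := by
  rw [← map_resIdeleHom_eq, ← map_resUnitsHom_eq]
  exact map_square_apply _ _ _ _ _ (resIdeleHom_diag k E K) n x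

/-- Transfer of vanishing along the change of presentation, for `J`. -/
theorem isZero_res_ideleRep_iff (n : ℕ) :
    Limits.IsZero (groupCohomology (Rep.res (fixSubgroup k E K).subtype (ideleRep k K)) n) ↔
      Limits.IsZero (groupCohomology (ideleRep E K) n) :=
  (ideleSubIso k E K n).isZero_iff.symm

/-- Transfer of vanishing along the change of presentation, for `C`. -/
theorem isZero_res_ideleClassRep_iff (n : ℕ) :
    Limits.IsZero
        (groupCohomology (Rep.res (fixSubgroup k E K).subtype (ideleClassRep k K)) n) ↔
      Limits.IsZero (groupCohomology (ideleClassRep E K) n) :=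
  (ideleClassSubIso k E K n).isZero_iff.symm

/-- Transfer of cardinalities along the change of presentation, for `C`. -/
theorem natCard_res_ideleClassRep (n : ℕ) :
    Nat.card (groupCohomology (Rep.res (fixSubgroup k E K).subtype (ideleClassRep k K)) n)
      = Nat.card (groupCohomology (ideleClassRep E K) n) :=
  Nat.card_congr (Equiv.ofBijective _ (ConcreteCategory.bijective_of_isIso
    (ideleClassSubIso k E K n).inv))

end Sub

end Fermat.Agent.S55.H86
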